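import Fermat.Agent.S51.H780.Dup

/-!
# S51 helper: counting points with `x`-coordinate among the roots of a polynomial,
and lines in small `ZMod p`-vector spaces.
-/

set_option autoImplicit false

namespace Fermat.Agent.S51.H780

open WeierstrassCurve Polynomial

section Count

variable {K : Type*} [Field K] (W : WeierstrassCurve.Affine K)

/-- the pair of coordinates of a point (`none` at infinity) -/
def toPair : W.Point → Option (K × K)
  | .zero => none
  | .some x y _ => some (x, y)

lemma toPair_injective : Function.Injective (toPair W) := by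
  rintro (_ | ⟨x₁, y₁, h₁⟩) (_ | ⟨x₂, y₂, h₂⟩) h <;>
    simp only [toPair, Option.some.injEq, Prod.mk.injEq, reduceCtorEq] at h
  · rfl
  · obtain ⟨rfl, rfl⟩ := h; rfl

/-- the quadratic polynomial in `Y` cutting out the points with given `x`-coordinate -/
noncomputable def yPoly (x : K) : K[X] :=
  X ^ 2 + C (W.a₁ * x + W.a₃) * X - C (x ^ 3 + W.a₂ * x ^ 2 + W.a₄ * x + W.a₆)

lemma yPoly_natDegree (x : K) : (yPoly W x).natDegree = 2 := by
  unfold yPoly
  compute_degree!

lemma yPoly_ne_zero (x : K) : yPoly W x ≠ 0 := by
  intro h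
  have := yPoly_natDegree W x
  rw [h] at this
  simp at this

lemma yPoly_eval {x y : K} : (yPoly W x).eval y = 0 ↔ W.Equation x y := by
  rw [Affine.equation_iff]
  simp only [yPoly, eval_sub, eval_add, eval_pow, eval_X, eval_mul, eval_C]
  constructor <;> intro h <;> linear_combination h

variable [DecidableEq K]

/-- the finite set of pairs `(x, y)` on the curve with `f x = 0` -/
noncomputable def rootPairs (f : K[X]) : Finset (K × K) :=
  f.roots.toFinset.biUnion fun x => (yPoly W x).roots.toFinset.image (Prod.mk x)

lemma card_rootPairs_le (f : K[X]) : (rootPairs W f).card ≤ 2 * f.natDegree := by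
  unfold rootPairs
  refine Finset.card_biUnion_le.trans ?_
  calc ∑ x ∈ f.roots.toFinset, ((yPoly W x).roots.toFinset.image (Prod.mk x)).card
      ≤ ∑ _x ∈ f.roots.toFinset, 2 := by
        refine Finset.sum_le_sum fun x _ => ?_
        refine Finset.card_image_le.trans ?_
        refine (Multiset.toFinset_card_le _).trans ?_
        exact (Polynomial.card_roots' _).trans (yPoly_natDegree W x).le
    _ = f.roots.toFinset.card * 2 := by simp
    _ ≤ f.natDegree * 2 := by
        refine Nat.mul_le_mul_right 2 ?_
        exact (Multiset.toFinset_card_le _).trans (Polynomial.card_roots' _)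
    _ = 2 * f.natDegree := by ring

lemma mem_rootPairs {f : K[X]} (hf : f ≠ 0) {x y : K} (hx : f.eval x = 0)
    (h : W.Equation x y) : (x, y) ∈ rootPairs W f := by
  unfold rootPairs
  simp only [Finset.mem_biUnion, Multiset.mem_toFinset, Finset.mem_image, Prod.mk.injEq]
  refine ⟨x, (Polynomial.mem_roots hf).mpr hx, y, ?_, rfl, rfl⟩
  exact (Polynomial.mem_roots (yPoly_ne_zero W x)).mpr ((yPoly_eval W).mpr h)

/-- A set of points all of whose nonzero members have `x`-coordinate a root of a nonzero
polynomial `f` is finite of cardinality at most `2 deg f + 1`. -/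
lemma finite_and_ncard_le_of_xc_roots (T : Set W.Point) (f : K[X]) (hf : f ≠ 0)
    (hT : ∀ P ∈ T, P ≠ 0 → f.eval (xc W P) = 0) :
    T.Finite ∧ T.ncard ≤ 2 * f.natDegree + 1 := by
  classical
  set S : Finset (Option (K × K)) := insert none ((rootPairs W f).image some) with hS
  have hsub : T ⊆ (toPair W) ⁻¹' (S : Set (Option (K × K))) := by
    intro P hP
    rw [Set.mem_preimage, Finset.mem_coe, hS]
    match P, hP with
    | .zero, _ => simp [toPair]
    | .some x y h, hP =>
      have := hT _ hP (Affine.Point.some_ne_zero h)
      simp only [xc_some] at this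
      simp only [toPair, Finset.mem_insert, reduceCtorEq, Finset.mem_image, Option.some.injEq,
        exists_eq_right, false_or]
      exact mem_rootPairs W hf this h.1
  have hmaps : ∀ P ∈ T, toPair W P ∈ (S : Set (Option (K × K))) := fun P hP => hsub hP
  have hfin : ((toPair W) ⁻¹' (S : Set (Option (K × K)))).Finite :=
    Set.Finite.preimage ((toPair_injective W).injOn) S.finite_toSet
  refine ⟨hfin.subset hsub, ?_⟩
  calc T.ncard ≤ (S : Set (Option (K × K))).ncard :=
        Set.ncard_le_ncard_of_injOn (toPair W) hmaps ((toPair_injective W).injOn) S.finite_toSet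
    _ = S.card := Set.ncard_coe_finset S
    _ ≤ ((rootPairs W f).image some).card + 1 := Finset.card_insert_le _ _
    _ ≤ (rootPairs W f).card + 1 := Nat.add_le_add_right Finset.card_image_le 1
    _ ≤ 2 * f.natDegree + 1 := Nat.add_le_add_right (card_rootPairs_le W f) 1

end Count

section Line

/-- In a `ZMod p`-vector space with fewer than `p ^ 3` elements, a proper submodule containing
a nonzero vector `P` consists of multiples of `P`. -/
lemma exists_smul_of_card_lt {p : ℕ} [Fact p.Prime] {V : Type*} [AddCommGroup V]
    [Module (ZMod p) V] [Finite V] (hcard : Nat.card V < p ^ 3)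
    (N : Submodule (ZMod p) V) (hN : N ≠ ⊤) {P : V} (hP : P ∈ N) (hP0 : P ≠ 0)
    {Q : V} (hQ : Q ∈ N) : ∃ k : ZMod p, Q = k • P := by
  have : Module.Finite (ZMod p) V := Module.Finite.of_finite
  have hp : 1 < p := (Fact.out : p.Prime).one_lt
  have h1 : Nat.card V = p ^ Module.finrank (ZMod p) V := by
    rw [Module.natCard_eq_pow_finrank (K := ZMod p), Nat.card_zmod]
  have h2 : Module.finrank (ZMod p) V < 3 := by
    rw [h1] at hcard
    exact (Nat.pow_lt_pow_iff_right hp).mp hcard
  have h3 : Module.finrank (ZMod p) N < Module.finrank (ZMod p) V := Submodule.finrank_lt hN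
  have h4 : Submodule.span (ZMod p) {P} ≤ N := by
    rw [Submodule.span_singleton_le_iff_mem]; exact hP
  have h5 : Module.finrank (ZMod p) (Submodule.span (ZMod p) {P}) = 1 :=
    finrank_span_singleton hP0
  have h6 : Submodule.span (ZMod p) {P} = N :=
    Submodule.eq_of_le_of_finrank_le h4 (by omega)
  rw [← h6] at hQ
  obtain ⟨k, hk⟩ := Submodule.mem_span_singleton.mp hQ
  exact ⟨k, hk.symm⟩

end Line

end Fermat.Agent.S51.H780
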