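import Fermat.Agent.S51.H780.Galois
import Fermat.Prelude.Def_FLTPrelim_ModularRep

/-!
# S51, part (I1) / `Three.main`

If the mod-`3` representation of `W` is reducible then
* `three_main`: `ψ₃` of `W ⊗ ℚ` has a rational root (captain's interface `Three.main`),
  `three_main'` adds `ψ₂²(x) ≠ 0`;
* `I1`: there is `t ∈ ℚ`, `t ≠ 0`, with `c₄³ t = Δ (t + 27) (t + 3)³`
  (interface of `Fermat.Agent.S51.H591.S51_of_parts`).
-/

set_option autoImplicit false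

namespace Fermat.Agent.S51.H780

open WeierstrassCurve

lemma Δ_map_ne_zero (W : WeierstrassCurve ℤ) (hΔ : W.Δ ≠ 0) :
    (W.map (Int.castRingHom ℚ)).Δ ≠ 0 := by
  rw [WeierstrassCurve.map_Δ]; simpa using hΔ

/-- `Three.main` with the extra information `ψ₂²(x) ≠ 0`. -/
theorem three_main' (W : WeierstrassCurve ℤ) (hΔ : W.Δ ≠ 0) (h : ¬ W.ModRepIsIrreducible 3) :
    ∃ x : ℚ, 3 * x ^ 4 + (W.b₂ : ℚ) * x ^ 3 + 3 * (W.b₄ : ℚ) * x ^ 2 + 3 * (W.b₆ : ℚ) * x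
        + (W.b₈ : ℚ) = 0 ∧
      4 * x ^ 3 + (W.b₂ : ℚ) * x ^ 2 + 2 * (W.b₄ : ℚ) * x + (W.b₆ : ℚ) ≠ 0 := by
  obtain ⟨x, hx, hD⟩ := exists_rat_root_psi3 (W.map (Int.castRingHom ℚ)) (Δ_map_ne_zero W hΔ) h
  refine ⟨x, ?_, ?_⟩
  · simpa [psi3, WeierstrassCurve.map_b₂, WeierstrassCurve.map_b₄, WeierstrassCurve.map_b₆,
      WeierstrassCurve.map_b₈] using hx
  · simpa [dupDen, WeierstrassCurve.map_b₂, WeierstrassCurve.map_b₄, WeierstrassCurve.map_b₆]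
      using hD

/-- `Three.main` (captain's interface): a reducible mod-`3` representation gives a rational root
of the `3`-division polynomial. -/
theorem three_main (W : WeierstrassCurve ℤ) (hΔ : W.Δ ≠ 0) (h : ¬ W.ModRepIsIrreducible 3) :
    ∃ x : ℚ, 3 * x ^ 4 + (W.b₂ : ℚ) * x ^ 3 + 3 * (W.b₄ : ℚ) * x ^ 2 + 3 * (W.b₆ : ℚ) * x
        + (W.b₈ : ℚ) = 0 := by
  obtain ⟨x, hx, -⟩ := three_main' W hΔ h
  exact ⟨x, hx⟩

/-- **(I1)** in the interface of `Fermat.Agent.S51.H591.S51_of_parts`. -/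
theorem I1 : ∀ W : WeierstrassCurve ℤ, W.Δ ≠ 0 → ¬ W.ModRepIsIrreducible 3 →
    ∃ t : ℚ, t ≠ 0 ∧ (W.c₄ : ℚ) ^ 3 * t = (W.Δ : ℚ) * ((t + 27) * (t + 3) ^ 3) := by
  intro W hΔ h3
  obtain ⟨t, ht, h⟩ := exists_param3 (W.map (Int.castRingHom ℚ)) (Δ_map_ne_zero W hΔ) h3
  refine ⟨t, ht, ?_⟩
  simpa [WeierstrassCurve.map_Δ, WeierstrassCurve.map_c₄] using h

end Fermat.Agent.S51.H780
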