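import Mathlib
import Fermat.Prelude.Def_FLTPrelim_GaloisRep

/-!
# S51 helper: the `x`-coordinate duplication map on a Weierstrass curve over a field

`x(2P) · Ψ₂Sq(x(P)) = Φ₂(x(P))`, stated with explicit polynomial expressions in the `b`-invariants.
-/

set_option autoImplicit false

namespace Fermat.Agent.S51.H780

open WeierstrassCurve

section Dup

variable {K : Type*} [Field K] (W : WeierstrassCurve.Affine K)

/-- numerator of the `x`-coordinate duplication map -/
def dupNum (x : K) : K := x ^ 4 - W.b₄ * x ^ 2 - 2 * W.b₆ * x - W.b₈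

/-- denominator of the `x`-coordinate duplication map, `= ψ₂²` -/
def dupDen (x : K) : K := 4 * x ^ 3 + W.b₂ * x ^ 2 + 2 * W.b₄ * x + W.b₆

/-- the `x`-coordinate of a point, with junk value `0` at infinity -/
def xc : W.Point → K
  | .zero => 0
  | .some x _ _ => x

@[simp] lemma xc_some {x y : K} (h : W.Nonsingular x y) : xc W (.some x y h) = x := rfl

lemma xc_neg (P : W.Point) : xc W (-P) = xc W P := by
  cases P <;> rfl

lemma dupDen_eq {x y : K} (h : W.Equation x y) : dupDen W x = (y - W.negY x y) ^ 2 := by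
  rw [Affine.equation_iff] at h
  simp only [dupDen, Affine.negY, WeierstrassCurve.b₂, WeierstrassCurve.b₄, WeierstrassCurve.b₆]
  linear_combination (-4 : K) * h

lemma dupDen_eq_zero_iff {x y : K} (h : W.Equation x y) : dupDen W x = 0 ↔ y = W.negY x y := by
  rw [dupDen_eq W h, sq_eq_zero_iff, sub_eq_zero]

/-- At a nonsingular point with `Ψ₂Sq(x) = 0`, we have `Φ₂(x) ≠ 0`. -/
lemma dupNum_ne_zero_of_dupDen_eq_zero {x y : K} (h : W.Nonsingular x y)
    (hD : dupDen W x = 0) : dupNum W x ≠ 0 := by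
  have hy : y = W.negY x y := (dupDen_eq_zero_iff W h.1).mp hD
  rw [Affine.nonsingular_iff] at h
  obtain ⟨he, hs⟩ := h
  rw [Affine.equation_iff] at he
  simp only [Affine.negY] at hy
  have hψ : 2 * y + W.a₁ * x + W.a₃ = 0 := by linear_combination hy
  have hX : W.a₁ * y - (3 * x ^ 2 + 2 * W.a₂ * x + W.a₄) ≠ 0 := by
    rcases hs with hs | hs
    · exact sub_ne_zero.mpr hs
    · exact absurd (by linear_combination hψ) hs
  have key : dupNum W x = (W.a₁ * y - (3 * x ^ 2 + 2 * W.a₂ * x + W.a₄)) ^ 2 := by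
    simp only [dupNum, WeierstrassCurve.b₄, WeierstrassCurve.b₆, WeierstrassCurve.b₈]
    linear_combination (8 * x + W.a₁ ^ 2 + 4 * W.a₂) * he +
      (W.a₁ * (3 * x ^ 2 + 2 * W.a₂ * x + W.a₄ - W.a₁ * y)
        - (W.a₂ + 2 * x) * (2 * y + W.a₁ * x + W.a₃)) * hψ
  rw [key]
  exact pow_ne_zero 2 hX

lemma eq_or_eq_neg_of_xc_eq {P Q : W.Point} (hP : P ≠ 0) (hQ : Q ≠ 0) (h : xc W P = xc W Q) :
    P = Q ∨ P = -Q := by
  match P, Q with
  | .zero, _ => exact absurd rfl hP
  | _, .zero => exact absurd rfl hQ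
  | .some x₁ y₁ h₁, .some x₂ y₂ h₂ =>
    simp only [xc_some] at h
    exact Affine.Point.X_eq_iff.mp h

variable [DecidableEq K]

lemma dup_addX {x y : K} (h : W.Equation x y) (hy : y ≠ W.negY x y) :
    W.addX x x (W.slope x x y y) * dupDen W x = dupNum W x := by
  have hne : y - W.negY x y ≠ 0 := sub_ne_zero.mpr hy
  rw [dupDen_eq W h, Affine.slope_of_Y_ne rfl hy]
  have h' := h
  rw [Affine.equation_iff] at h'
  set l := (3 * x ^ 2 + 2 * W.a₂ * x + W.a₄ - W.a₁ * y) / (y - W.negY x y) with hl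
  have hl' : l * (y - W.negY x y) = 3 * x ^ 2 + 2 * W.a₂ * x + W.a₄ - W.a₁ * y :=
    div_mul_cancel₀ _ hne
  simp only [Affine.addX, dupNum, Affine.negY, WeierstrassCurve.b₄, WeierstrassCurve.b₆,
    WeierstrassCurve.b₈] at hl' ⊢
  linear_combination (l * (y - (-y - W.a₁ * x - W.a₃)) + (3 * x ^ 2 + 2 * W.a₂ * x + W.a₄ - W.a₁ * y)
    + W.a₁ * (y - (-y - W.a₁ * x - W.a₃))) * hl' + (-8 * x - W.a₁ ^ 2 - 4 * W.a₂) * h'

lemma dupDen_xc_eq_zero_iff {P : W.Point} (hP : P ≠ 0) : dupDen W (xc W P) = 0 ↔ P + P = 0 := by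
  match P with
  | .zero => exact absurd rfl hP
  | .some x y h =>
    rw [xc_some, dupDen_eq_zero_iff W h.1]
    constructor
    · intro hy
      exact Affine.Point.add_self_of_Y_eq hy
    · intro h0
      by_contra hy
      rw [Affine.Point.add_self_of_Y_ne hy] at h0
      exact Affine.Point.some_ne_zero _ h0

lemma xc_add_self {P : W.Point} (hP : P ≠ 0) (h2 : P + P ≠ 0) :
    xc W (P + P) * dupDen W (xc W P) = dupNum W (xc W P) := by
  match P with
  | .zero => exact absurd rfl hP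
  | .some x y h =>
    have hy : y ≠ W.negY x y := by
      intro hy
      exact h2 (Affine.Point.add_self_of_Y_eq hy)
    rw [Affine.Point.add_self_of_Y_ne hy, xc_some, xc_some]
    exact dup_addX W h.1 hy

end Dup

end Fermat.Agent.S51.H780
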