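import Fermat.Agent.S51.H780.Tors3

/-!
# S51 helper: Galois action on `x`-coordinates, and descent of Galois-fixed elements
-/

set_option autoImplicit false

namespace Fermat.Agent.S51.H780

open WeierstrassCurve Polynomial
open scoped WeierstrassCurve.Affine

section Galois

variable (E : WeierstrassCurve.Affine ℚ)

local notation "Qbar" => AlgebraicClosure ℚ

lemma xc_smul (σ : Qbar ≃ₐ[ℚ] Qbar) (P : (E⁄Qbar).Point) :
    xc (E⁄Qbar) (σ • P) = σ (xc (E⁄Qbar) P) := by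
  match P with
  | .zero => exact (map_zero σ).symm
  | .some x y h => rfl

lemma smul_point_ne_zero (σ : Qbar ≃ₐ[ℚ] Qbar) {P : (E⁄Qbar).Point} (hP : P ≠ 0) :
    σ • P ≠ 0 := by
  match P with
  | .zero => exact absurd rfl hP
  | .some x y h => exact Affine.Point.some_ne_zero _

lemma coe_smul_torsion {n : ℕ} (σ : Qbar ≃ₐ[ℚ] Qbar)
    (P : Submodule.torsionBy ℤ (E⁄Qbar).Point n) :
    ((σ • P : Submodule.torsionBy ℤ (E⁄Qbar).Point n) : (E⁄Qbar).Point) =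
      σ • (P : (E⁄Qbar).Point) := rfl

lemma coe_zmod_smul_torsion {n : ℕ} [NeZero n] (k : ZMod n)
    (P : Submodule.torsionBy ℤ (E⁄Qbar).Point n) :
    ((k • P : Submodule.torsionBy ℤ (E⁄Qbar).Point n) : (E⁄Qbar).Point) =
      k.val • (P : (E⁄Qbar).Point) := by
  conv_lhs => rw [← ZMod.natCast_zmod_val k, Nat.cast_smul_eq_nsmul]
  rfl

theorem isGalois_Qbar : IsGalois ℚ Qbar := by
  have h : @IsGalois ℚ _ Qbar _ (AlgebraicClosure.instAlgebra ℚ) :=
    @IsSepClosure.isGalois ℚ _ Qbar _ (AlgebraicClosure.instAlgebra ℚ) inferInstance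
  have e : (AlgebraicClosure.instAlgebra ℚ) =
      (DivisionRing.toRatAlgebra : Algebra ℚ Qbar) := Subsingleton.elim _ _
  rw [e] at h
  exact h

lemma exists_rat_of_fixed {x : Qbar} (hx : ∀ σ : Qbar ≃ₐ[ℚ] Qbar, σ x = x) :
    ∃ q : ℚ, algebraMap ℚ Qbar q = x :=
  haveI := isGalois_Qbar
  (InfiniteGalois.mem_range_algebraMap_iff_fixed x).mpr hx

lemma psi3_baseChange (q : ℚ) :
    psi3 (E⁄Qbar) (algebraMap ℚ Qbar q) = algebraMap ℚ Qbar (psi3 E q) := by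
  simp only [psi3, WeierstrassCurve.baseChange, WeierstrassCurve.map_b₂, WeierstrassCurve.map_b₄,
    WeierstrassCurve.map_b₆, WeierstrassCurve.map_b₈, map_add, map_mul, map_pow, map_ofNat]

lemma dupDen_baseChange (q : ℚ) :
    dupDen (E⁄Qbar) (algebraMap ℚ Qbar q) = algebraMap ℚ Qbar (dupDen E q) := by
  simp only [dupDen, WeierstrassCurve.baseChange, WeierstrassCurve.map_b₂, WeierstrassCurve.map_b₄,
    WeierstrassCurve.map_b₆, map_add, map_mul, map_pow, map_ofNat]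

lemma dupNum_baseChange (q : ℚ) :
    dupNum (E⁄Qbar) (algebraMap ℚ Qbar q) = algebraMap ℚ Qbar (dupNum E q) := by
  simp only [dupNum, WeierstrassCurve.baseChange, WeierstrassCurve.map_b₄,
    WeierstrassCurve.map_b₆, WeierstrassCurve.map_b₈, map_sub, map_mul, map_pow, map_ofNat]

lemma Δ_baseChange_ne_zero (hΔ : E.Δ ≠ 0) : (E⁄Qbar).Δ ≠ 0 := by
  simp only [WeierstrassCurve.baseChange, WeierstrassCurve.map_Δ]
  exact (map_ne_zero_iff _ (algebraMap ℚ Qbar).injective).mpr hΔ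

/-- If the mod-`3` representation of `E/ℚ` is reducible, then `ψ₃` has a rational root `x`
(the `x`-coordinate of the points of a Galois-stable line), and `ψ₂²(x) ≠ 0`. -/
theorem exists_rat_root_psi3 (hΔ : E.Δ ≠ 0)
    (h : ¬ Affine.Point.GaloisRepIsIrreducible (K := Qbar) ℚ E 3) :
    ∃ x : ℚ, psi3 E x = 0 ∧ dupDen E x ≠ 0 := by
  have h3K : (3 : Qbar) ≠ 0 := by norm_num
  have hΔK := Δ_baseChange_ne_zero E hΔ
  obtain ⟨hfin, hcard⟩ := finite_card_torsion3 (E⁄Qbar) h3K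
  -- nontriviality
  have hnt : Nontrivial (Submodule.torsionBy ℤ (E⁄Qbar).Point (3 : ℕ)) := by
    obtain ⟨P, hP0, hP3⟩ := exists_three_torsion (E⁄Qbar) h3K hΔK
    refine ⟨⟨⟨P, (mem_torsionBy_iff_nsmul _ P).mpr hP3⟩, 0, ?_⟩⟩
    intro h0
    exact hP0 (congrArg Subtype.val h0)
  unfold Affine.Point.GaloisRepIsIrreducible at h
  push Not at h
  obtain ⟨N, hstable, hbot, htop⟩ := h hnt
  have : Fact (Nat.Prime 3) := ⟨Nat.prime_three⟩
  obtain ⟨P, hPN, hP0⟩ := Submodule.exists_mem_ne_zero_of_ne_bot hbot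
  have hP0' : (P : (E⁄Qbar).Point) ≠ 0 := fun h0 => hP0 (Subtype.ext h0)
  have hP3 : (3 : ℕ) • (P : (E⁄Qbar).Point) = 0 := (mem_torsionBy_iff_nsmul _ _).mp P.2
  -- the x-coordinate is Galois-fixed
  have hfix : ∀ σ : Qbar ≃ₐ[ℚ] Qbar, σ (xc (E⁄Qbar) P) = xc (E⁄Qbar) P := by
    intro σ
    obtain ⟨k, hk⟩ := exists_smul_of_card_lt hcard N htop hPN hP0 (hstable σ P hPN)
    have hk' : σ • (P : (E⁄Qbar).Point) = k.val • (P : (E⁄Qbar).Point) := by
      rw [← coe_smul_torsion, hk, coe_zmod_smul_torsion]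
    rw [← xc_smul, hk']
    have hne : k.val • (P : (E⁄Qbar).Point) ≠ 0 := hk' ▸ smul_point_ne_zero E σ hP0'
    have hlt : k.val < 3 := ZMod.val_lt k
    interval_cases hv : k.val
    · simp at hne
    · simp
    · have h2 : (2 : ℕ) • (P : (E⁄Qbar).Point) = -(P : (E⁄Qbar).Point) := by
        have : (2 : ℕ) • (P : (E⁄Qbar).Point) + (P : (E⁄Qbar).Point) = 0 := by
          rw [← hP3, succ_nsmul (P : (E⁄Qbar).Point) 2]
        exact eq_neg_of_add_eq_zero_left this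
      rw [h2, xc_neg]
  obtain ⟨q, hq⟩ := exists_rat_of_fixed hfix
  obtain ⟨hψ, hD⟩ := psi3_of_three_nsmul (E⁄Qbar) hP0' hP3
  rw [← hq, psi3_baseChange] at hψ
  rw [← hq, dupDen_baseChange] at hD
  have hψ' : psi3 E q = 0 := (map_eq_zero_iff _ (algebraMap ℚ Qbar).injective).mp hψ
  have hD' : dupDen E q ≠ 0 := fun h0 => hD (by rw [h0, map_zero])
  exact ⟨q, hψ', hD'⟩

/-- **(I1)**: if the mod-`3` representation of `E/ℚ` is reducible, then `j(E)` lies in the image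
of `X₀(3)(ℚ)`: there is `t ∈ ℚ`, `t ≠ 0`, with `c₄³ t = Δ (t + 27) (t + 3)³`. -/
theorem exists_param3 (hΔ : E.Δ ≠ 0)
    (h : ¬ Affine.Point.GaloisRepIsIrreducible (K := Qbar) ℚ E 3) :
    ∃ t : ℚ, t ≠ 0 ∧ E.c₄ ^ 3 * t = E.Δ * ((t + 27) * (t + 3) ^ 3) := by
  obtain ⟨q, hψ', hD'⟩ := exists_rat_root_psi3 E hΔ h
  refine ⟨E.Δ / dupDen E q ^ 2, div_ne_zero hΔ (pow_ne_zero 2 hD'), ?_⟩
  exact param3_identity E q hψ' hD'

end Galois

end Fermat.Agent.S51.H780
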