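import Fermat.Agent.S51.H780.Count

/-!
# S51 helper: `3`-torsion points via `x`-coordinates
-/

set_option autoImplicit false

namespace Fermat.Agent.S51.H780

open WeierstrassCurve Polynomial

section Tors3

variable {K : Type*} [Field K] (W : WeierstrassCurve.Affine K)

/-- the `3`-division polynomial as a function -/
def psi3 (x : K) : K := 3 * x ^ 4 + W.b₂ * x ^ 3 + 3 * W.b₄ * x ^ 2 + 3 * W.b₆ * x + W.b₈

lemma psi3_eq (x : K) : psi3 W x = x * dupDen W x - dupNum W x := by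
  simp only [psi3, dupDen, dupNum]; ring

lemma eval_Ψ₃ (x : K) : W.Ψ₃.eval x = psi3 W x := by
  simp [WeierstrassCurve.Ψ₃, psi3]

lemma eval_Ψ₂Sq (x : K) : W.Ψ₂Sq.eval x = dupDen W x := by
  simp [WeierstrassCurve.Ψ₂Sq, dupDen]

/-- The parametrisation of `X₀(3)`: from a root `x` of `ψ₃` with `ψ₂²(x) ≠ 0`. -/
lemma param3_identity (x : K) (hψ : psi3 W x = 0) (hD : dupDen W x ≠ 0) :
    W.c₄ ^ 3 * (W.Δ / dupDen W x ^ 2) =
      W.Δ * ((W.Δ / dupDen W x ^ 2 + 27) * (W.Δ / dupDen W x ^ 2 + 3) ^ 3) := by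
  have hrel := W.b_relation
  set D := dupDen W x with hDdef
  set B₂ := W.b₂ + 12 * x with hB₂
  set B₄ := W.b₄ + W.b₂ * x + 6 * x ^ 2 with hB₄
  have h1 : B₂ * D = B₄ ^ 2 := by
    simp only [hB₂, hB₄, hDdef, dupDen, psi3] at hψ ⊢
    linear_combination 4 * hψ - hrel
  have h2 : W.Δ = B₄ ^ 3 - 27 * D ^ 2 := by
    simp only [hB₄, hDdef, dupDen, psi3, WeierstrassCurve.Δ] at hψ ⊢
    linear_combination (72 * x ^ 2 + 12 * x * W.b₂ - W.b₂ ^ 2 + 36 * W.b₄) * hψ +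
      (-18 * x ^ 2 - 3 * x * W.b₂ - 9 * W.b₄) * hrel
  have h3 : W.c₄ * D ^ 2 = B₄ * (W.Δ + 3 * D ^ 2) := by
    have hc : W.c₄ = B₂ ^ 2 - 24 * B₄ := by
      simp only [hB₂, hB₄, WeierstrassCurve.c₄]; ring
    rw [hc, h2]
    linear_combination (B₂ * D + B₄ ^ 2) * h1
  have h4 : W.c₄ ^ 3 * D ^ 6 = (W.Δ + 27 * D ^ 2) * (W.Δ + 3 * D ^ 2) ^ 3 := by
    have : W.c₄ ^ 3 * D ^ 6 = (W.c₄ * D ^ 2) ^ 3 := by ring
    rw [this, h3]
    have h2' : B₄ ^ 3 = W.Δ + 27 * D ^ 2 := by linear_combination -h2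
    linear_combination (W.Δ + 3 * D ^ 2) ^ 3 * h2'
  field_simp
  linear_combination W.Δ * h4

variable [DecidableEq K]

lemma psi3_of_three_nsmul {P : W.Point} (hP : P ≠ 0) (h3 : (3 : ℕ) • P = 0) :
    psi3 W (xc W P) = 0 ∧ dupDen W (xc W P) ≠ 0 := by
  have h2 : P + P = -P := by
    have : P + P + P = 0 := by
      rw [← h3]; simp only [succ_nsmul, zero_nsmul, zero_add]
    exact eq_neg_of_add_eq_zero_left this
  have h2ne : P + P ≠ 0 := by
    rw [h2]; exact neg_ne_zero.mpr hP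
  have hx := xc_add_self W hP h2ne
  rw [h2, xc_neg] at hx
  refine ⟨?_, fun hD => h2ne ((dupDen_xc_eq_zero_iff W hP).mp hD)⟩
  rw [psi3_eq, hx, sub_self]

lemma three_nsmul_of_psi3 {x y : K} (h : W.Nonsingular x y) (hψ : psi3 W x = 0) :
    (3 : ℕ) • (Affine.Point.some x y h) = 0 := by
  set P : W.Point := Affine.Point.some x y h with hPdef
  have hP : P ≠ 0 := Affine.Point.some_ne_zero h
  have hxc : xc W P = x := rfl
  have hD : dupDen W x ≠ 0 := by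
    intro hD
    have hN := dupNum_ne_zero_of_dupDen_eq_zero W h hD
    rw [psi3_eq, hD, mul_zero, zero_sub, neg_eq_zero] at hψ
    exact hN hψ
  have h2ne : P + P ≠ 0 := fun h0 => hD (hxc ▸ (dupDen_xc_eq_zero_iff W hP).mpr h0)
  have hx := xc_add_self W hP h2ne
  rw [hxc] at hx
  have hx' : xc W (P + P) = xc W P := by
    rw [hxc]
    rw [psi3_eq, sub_eq_zero] at hψ
    exact mul_right_cancel₀ hD (hx.trans hψ.symm)
  have h3 : P + P + P = 0 := by
    rcases eq_or_eq_neg_of_xc_eq W h2ne hP hx' with h | h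
    · exact absurd (add_eq_left.mp h) hP
    · rw [h]; exact neg_add_cancel P
  rw [← h3]; simp only [succ_nsmul, zero_nsmul, zero_add]

lemma mem_torsionBy_iff_nsmul {n : ℕ} (P : W.Point) :
    P ∈ Submodule.torsionBy ℤ W.Point n ↔ n • P = 0 := by
  rw [Submodule.mem_torsionBy_iff, Nat.cast_smul_eq_nsmul]

lemma finite_card_torsion3 (h3 : (3 : K) ≠ 0) :
    Finite (Submodule.torsionBy ℤ W.Point (3 : ℕ)) ∧
      Nat.card (Submodule.torsionBy ℤ W.Point (3 : ℕ)) < 3 ^ 3 := by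
  have key := finite_and_ncard_le_of_xc_roots W
    (Submodule.torsionBy ℤ W.Point (3 : ℕ) : Set W.Point) W.Ψ₃ (W.Ψ₃_ne_zero h3) (by
      intro P hP hP0
      rw [eval_Ψ₃]
      exact (psi3_of_three_nsmul W hP0 ((mem_torsionBy_iff_nsmul W P).mp hP)).1)
  refine ⟨key.1.to_subtype, ?_⟩
  have hdeg : W.Ψ₃.natDegree ≤ 4 := W.natDegree_Ψ₃_le
  have : Nat.card (Submodule.torsionBy ℤ W.Point (3 : ℕ)) =
      (Submodule.torsionBy ℤ W.Point (3 : ℕ) : Set W.Point).ncard := rfl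
  rw [this]
  omega

lemma exists_three_torsion [IsAlgClosed K] (h3 : (3 : K) ≠ 0) (hΔ : W.Δ ≠ 0) :
    ∃ P : W.Point, P ≠ 0 ∧ (3 : ℕ) • P = 0 := by
  obtain ⟨x, hx⟩ := IsAlgClosed.exists_root W.Ψ₃ (by
    rw [Polynomial.degree_eq_natDegree (W.Ψ₃_ne_zero h3), W.natDegree_Ψ₃ h3]; norm_num)
  obtain ⟨y, hy⟩ := IsAlgClosed.exists_root (yPoly W x) (by
    rw [Polynomial.degree_eq_natDegree (yPoly_ne_zero W x), yPoly_natDegree]; norm_num)
  have he : W.Equation x y := (yPoly_eval W).mp hy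
  have hns : W.Nonsingular x y := (Affine.equation_iff_nonsingular_of_Δ_ne_zero hΔ).mp he
  refine ⟨Affine.Point.some x y hns, Affine.Point.some_ne_zero hns, ?_⟩
  apply three_nsmul_of_psi3
  rw [← eval_Ψ₃]; exact hx

end Tors3

end Fermat.Agent.S51.H780
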